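import Fermat.Agent.S48.X1.Crux
import Fermat.Agent.S48.Coh1.ToB1
import Fermat.Agent.S48.C1.Inst.F1
import Fermat.Agent.S48.An1.Out

/-!
# S48 / Gal / Geometry : assembly of the Eichler-Shimura module of `X₁(M)`   (owner: helper96)

`es1Module_F1` is PROVED from the two inputs below (everything else, i.e. B1, C1 abstract, CuspPoly, Coh1, F1Q, is wired):

* `hasPacks_F1`  (owner: helper41, `C1/Inst`): packs of Taylor embeddings of `F1(M)`;
* `exists_an1`   (owners: helper61 (A), helper20 (B), helper92 (C), helper4 (D)): the analytic theory of `F1(M)`: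
  `HeckeData`, the character theory `An1Out` = (K1)-(K5), and (K6), (K7).

The owners replace the `sorry` by a reference to their theorem (add the import).
-/

set_option autoImplicit false

open AlgebraicCurve ModularCurve CongruenceSubgroup Fermat.Agent.ES

namespace Fermat.Agent.S48.Gal

open Fermat.Agent.S48.X1 (F1Q G1)

/-- **(I-b)** packs of Taylor embeddings for `F1(M)`. -/
theorem hasPacks_F1 (M : ℕ) [NeZero M] (hM : 5 ≤ M) :
    C1.HasPacks (C1.F0 Qb (G1 M)) (C1.jF0 Qb (G1 M)) (fun _ => True) :=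
  C1.Inst.hasPacks_F1 M hM

/-- **An1**: diamond operators, Hecke operators and the character theory (K1)-(K7) of `F1(M)`. -/
theorem exists_an1 (M l : ℕ) [NeZero M] (hM : 5 ≤ M) (hl : l.Prime) :
    ∃ (H : B1.HeckeData (F1Q M) M) (A : Coh1.An1Out (F1Q M) H l),
      (∀ f : (F1Q M).F, f ≠ 0 → (∀ P : Place Qb (F1Q M).F, (l : ℤ) ∣ P.ord f) →
        ∀ χ, A.HasChar f χ → Coh1.IsGood χ) ∧
      (∀ f : (F1Q M).F, f ≠ 0 → ∀ χ, A.HasChar f χ → Coh1.IsGood χ →
        ∀ P : Place Qb (F1Q M).F, (l : ℤ) ∣ P.ord f) :=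
  An1.exists_an1 hM hl.pos

/-- **The Eichler-Shimura module of `X₁(M)`**, exponent `l ∣ M`. -/
theorem es1Module_F1 (M l : ℕ) [NeZero M] (hM : 5 ≤ M) (hl : l.Prime) (hlM : l ∣ M) :
    Nonempty (D1.ES1Module M l (CuspForm (Gamma1 M) 2) (Coh1.TW M) (Coh1.DW M)) := by
  obtain ⟨H, A, K6, K7⟩ := exists_an1 M l hM hl
  refine ⟨A.es1Module hl.ne_zero (A.preservesDm K6 K7) fun p hp hpM => ?_⟩
  exact X1.crux1_F1Q M hM (hasPacks_F1 M hM) p l hp hpM hl (fun h => hpM (h ▸ hlM))

end Fermat.Agent.S48.Gal
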