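import Fermat.Agent.S48.Defs
import Fermat.Agent.S48.D1.Defs
import Fermat.Agent.S48.H.Hecke
import Fermat.Agent.S48.Gal.Geometry
import Fermat.Agent.S48.DS.Eigenvector

/-!
# S48 / Gal / Inputs : the two inputs of `Gal.hasModReps`

* `exists_es1Module` (owner: helper96, part B1 = assembly of X1, An1, Coh1, B1, C1):
  the Eichler-Shimura module of level `Γ₁(M)` and exponent `ℓ`.
* `exists_eigenvector` (owner: helper57, part DS = W0 + W1 + E1 + `DS.ds_formal`): the weight 2 eigenvector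
  of level `M = N³ ℓ` congruent to `f`.

The owners may add imports and replace the `sorry`s; statement changes: one line on topic S48 first.
-/

set_option autoImplicit false

open CongruenceSubgroup

namespace Fermat.Agent.S48.Gal

open Fermat.Agent.ES.D (GoodPrime)
open Fermat.Agent.S48.D1 (ES1Module gpUnit)

/-- `T_p` on `S_2(Γ₁(M))`, indexed by good primes. -/
noncomputable def TW (M : ℕ) [NeZero M] (p : GoodPrime M) :
    Module.End ℂ (CuspForm (Gamma1 M) 2) := H.heckeT 2 p.2.1 p.2.2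

/-- `⟨d⟩` on `S_2(Γ₁(M))`. -/
noncomputable def DW (M : ℕ) [NeZero M] (d : (ZMod M)ˣ) :
    Module.End ℂ (CuspForm (Gamma1 M) 2) := H.diamond 2 d

/-- **Geometry** (X1, An1, Coh1, B1, C1). -/
theorem exists_es1Module (M ℓ : ℕ) [NeZero M] (hℓ : ℓ.Prime) (hℓ13 : 13 ≤ ℓ) (hℓM : ℓ ∣ M) :
    Nonempty (ES1Module M ℓ (CuspForm (Gamma1 M) 2) (TW M) (DW M)) := by
  have hM : 5 ≤ M := by
    have := Nat.le_of_dvd (Nat.pos_of_ne_zero (NeZero.ne M)) hℓM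
    omega
  exact es1Module_F1 M ℓ hM hℓ hℓM

/-- **Deligne-Serre** (W0, W1, E1, DS): for all large `ℓ` and every valuation `v` of `ℂ` which is `≤ 1` on
algebraic integers and `< 1` at `ℓ`, there is an eigenvector `F ≠ 0` in `S_2(Γ₁(N³ ℓ))` whose
eigenvalues are congruent to `a_p(f)`, resp. to algebraic integers `χ d`, with `p ψ(p) ≡ ε(p)`. -/
theorem exists_eigenvector (N : ℕ) [NeZero N] (ε : DirichletCharacter ℂ N)
    (f : CuspForm (Gamma1 N) 1) (hf : IsFormalEigen N ε f) :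
    ∃ ℓ₀ : ℕ, ∀ ℓ : ℕ, ℓ.Prime → ℓ₀ < ℓ → ∀ [NeZero (N ^ 3 * ℓ)] (𝒱 : ValuationSubring ℂ),
      (∀ x : ℂ, IsIntegral ℤ x → 𝒱.valuation x ≤ 1) → 𝒱.valuation (ℓ : ℂ) < 1 →
      ∃ (F : CuspForm (Gamma1 (N ^ 3 * ℓ)) 2) (b : GoodPrime (N ^ 3 * ℓ) → ℂ)
        (ψ : (ZMod (N ^ 3 * ℓ))ˣ → ℂ) (χ : (ZMod (N ^ 3 * ℓ))ˣ → Zbar), F ≠ 0 ∧
        (∀ p, TW _ p F = b p • F) ∧ (∀ d, DW _ d F = ψ d • F) ∧
        (∀ p, 𝒱.valuation (b p - ModularFormClass.qCoeff f p.1) < 1) ∧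
        (∀ d, 𝒱.valuation (ψ d - (χ d : ℂ)) < 1) ∧
        (∀ p, 𝒱.valuation ((p.1 : ℂ) * ψ (gpUnit p) - ε (p.1 : ZMod N)) < 1) :=
  DS.exists_eigenvector N ε f hf

end Fermat.Agent.S48.Gal
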