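import Fermat.Agent.S48.Defs
import Fermat.Agent.S48.Gal.Inputs
import Fermat.Agent.S48.D1.Val
import Fermat.Agent.S48.DS.Formal
import Fermat.Agent.S48.MF.Main
import Fermat.Agent.Lib.FrobDensity.ForES

/-!
# S48 / Gal : the mod `ℓ` representations

Blueprint: board #1226 (EIS, E1, DS) and #1227 (X1, An1, Coh1, B1, C1, D1).  Owner: helper92 (D1).
`hasModReps` is PROVED from the two inputs of `Gal/Inputs.lean`, `MF.isIntegral_qCoeff`, part D1 and FD.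
-/

set_option autoImplicit false

open CongruenceSubgroup

namespace Fermat.Agent.S48.Gal

open Fermat.Agent.ES.D (GoodPrime)
open Fermat.Agent.S48.D1 (ES1Module gpUnit)

theorem isSS_of_semisimple2 {G k : Type} [Group G] [Field k] {r : G →* GL (Fin 2) k}
    (h : D1.Semisimple2 r) : IsSS r := by
  rcases h with h | ⟨ψ, ψ', h⟩
  · exact Or.inl h
  · refine Or.inr fun g => ?_
    rw [h g]
    simp

/-- **(I4)** -/
theorem hasModReps (N : ℕ) [NeZero N] (ε : DirichletCharacter ℂ N)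
    (f : CuspForm (Gamma1 N) 1) (hf : IsFormalEigen N ε f) :
    HasModReps N (fun p => ModularFormClass.qCoeff f p) (fun p => ε (p : ZMod N)) := by
  obtain ⟨ℓ₀, hℓ₀⟩ := exists_eigenvector N ε f hf
  refine ⟨max ℓ₀ 13, fun ℓ hℓ hlt k _ _ _ φ hφ => ?_⟩
  have h1 : ℓ₀ < ℓ := lt_of_le_of_lt (le_max_left _ _) hlt
  have h13 : 13 ≤ ℓ := (lt_of_le_of_lt (le_max_right _ _) hlt).le
  have hM : NeZero (N ^ 3 * ℓ) := ⟨mul_ne_zero (pow_ne_zero 3 (NeZero.ne N)) hℓ.ne_zero⟩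
  have hφℓ : φ (ℓ : Zbar) = 0 := by rw [map_natCast, CharP.cast_eq_zero]
  -- the valuation
  have hker : RingHom.ker φ ≠ ⊤ := (RingHom.ker_ne_top φ)
  obtain ⟨𝒱, hv1, hv2⟩ := DS.exists_valuationSubring (RingHom.ker φ) hker
  have hvℓ : 𝒱.valuation (ℓ : ℂ) < 1 := by
    have := hv2 (ℓ : Zbar) hφℓ
    simpa using this
  obtain ⟨F, b, ψ, χ, hF, hT, hD, hb, hψ, hχ⟩ := hℓ₀ ℓ hℓ h1 𝒱 hv1 hvℓ
  obtain ⟨E⟩ := exists_es1Module (N ^ 3 * ℓ) ℓ hℓ h13 (Dvd.intro_left _ rfl)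
  have hgood : ∀ p : ℕ, ¬ p ∣ N ^ 3 * ℓ → ¬ p ∣ N := fun p h h' =>
    h (Dvd.dvd.mul_right (Dvd.dvd.trans h' (dvd_pow_self N (by norm_num))) ℓ)
  let a : GoodPrime (N ^ 3 * ℓ) → Zbar := fun p =>
    ⟨ModularFormClass.qCoeff f p.1, MF.isIntegral_qCoeff N ε f hf p.1 p.2.1 (hgood _ p.2.2)⟩
  obtain ⟨r, hr1, hr2, -, hr4⟩ := D1.exists_residual_val FD.frobPowerDensity
    (N := N) (M := N ^ 3 * ℓ) (Dvd.dvd.mul_right (dvd_pow_self N (by norm_num)) ℓ) hℓ.pos ε E φ hφ hφℓ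
    𝒱.valuation hv1 (fun z hz => hv2 z hz) F hF b ψ hT hD a hb χ hψ hχ
  have hgood' : ∀ p : ℕ, p.Prime → ¬ p ∣ N * ℓ → ¬ p ∣ N ^ 3 * ℓ := by
    intro p hp h h'
    rcases (Nat.Prime.dvd_mul hp).mp h' with h' | h'
    · exact h (Dvd.dvd.mul_right (hp.dvd_of_dvd_pow h') ℓ)
    · exact h (Dvd.dvd.mul_left h' N)
  refine ⟨r, hr1, isSS_of_semisimple2 hr2, ?_, ?_⟩
  · intro p hp hpN A hA σ hσ
    exact (hr4 ⟨p, hp, hgood' p hp hpN⟩ A hA).1 σ hσ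
  · intro p hp hpN A hA σ hσ x y hx hy
    obtain ⟨h3, h4⟩ := (hr4 ⟨p, hp, hgood' p hp hpN⟩ A hA).2 σ hσ
    refine ⟨?_, ?_⟩
    · rw [h3]
      congr 1
      exact Subtype.ext hx.symm
    · rw [h4]
      congr 1
      exact Subtype.ext hy.symm

end Fermat.Agent.S48.Gal
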